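import Mathlib
import Fermat.Agent.S58.Coef

/-!
M59 / Sink B, cell [E22-5] (helper23), prefix `m59e5_`.  **[COEF-𝔪]**: the twin of main's
`s58co_coef` in which the place of `𝓞 K` is the contraction of a given maximal ideal `𝔪` of `ℤ̄`
(`= integralClosure ℤ ℂ`), so that congruences modulo `𝔪` become congruences modulo `𝔪_{O'}`:

`m59e5_coef` : for a normalised eigenform `g`, a prime `lam ∈ 𝔪` and a finite set `S`: a complete
DVR `O'` (char. `0`, finite residue field, `lam ∈ 𝔪_{O'}`), the eigencharacter `chig`, an injective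
`iota : chig.range →+* O'` with `a - n ∈ 𝔪 ⟹ iota (chig t) - n ∈ 𝔪_{O'}` whenever `a = chig t`.
-/

set_option autoImplicit false
set_option linter.style.haveILetI false

open CuspForm CongruenceSubgroup ModularFormClass IsLocalRing
open Fermat.Agent.S49 Fermat.Agent.JT3 Fermat.Agent.S58
open scoped NumberField

namespace Fermat.Agent.M59

noncomputable section

/-- **[COEF-𝔪]** -/
theorem m59e5_coef {M : ℕ} [NeZero M] {g : CuspForm (Gamma0 M) 2} (hg : g.IsNormalizedEigenform)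
    (lam : ℕ) [hlamF : Fact lam.Prime] (S : Finset ℕ)
    (𝔪 : Ideal (integralClosure ℤ ℂ)) (h𝔪 : 𝔪.IsMaximal)
    (hlam𝔪 : (lam : integralClosure ℤ ℂ) ∈ 𝔪) :
    ∃ (O' : Type) (_ : CommRing O') (_ : IsDomain O') (_ : IsDiscreteValuationRing O')
      (_ : IsAdicComplete (maximalIdeal O') O') (_ : Finite (ResidueField O')) (_ : CharZero O')
      (_ : (lam : O') ∈ maximalIdeal O')
      (chig : CuspForm.heckeAlgebra M 2 (↑S : Set ℕ) →+* ℂ)
      (_ : ∀ (ℓ : ℕ) (hℓ : ℓ.Prime) (hℓM : ¬ ℓ ∣ M) (hℓS : ℓ ∉ (↑S : Set ℕ)),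
        chig (CuspForm.heckeAlgebra.T hℓ hℓM hℓS) = ModularFormClass.qCoeff g ℓ)
      (iota : chig.range →+* O'), Function.Injective iota ∧
      ∀ (t : CuspForm.heckeAlgebra M 2 (↑S : Set ℕ)) (a : integralClosure ℤ ℂ) (n : ℤ),
        (a : ℂ) = chig t → a - (n : integralClosure ℤ ℂ) ∈ 𝔪 →
        (iota.comp chig.rangeRestrict) t - (n : O') ∈ maximalIdeal O' := by
  classical
  obtain ⟨K, hK, hmem⟩ := s58co_exists_field hg (↑S : Set ℕ)
  haveI : NumberField K := @NumberField.mk K _ inferInstance hK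
  have hfin : Module.Finite ℤ (heckeAlgebra M 2 (↑S : Set ℕ)) := Fermat.Agent.S22.result M 2 _
  haveI : Algebra.IsIntegral ℤ (heckeAlgebra M 2 (↑S : Set ℕ)) := Algebra.IsIntegral.of_finite _ _
  let χK : heckeAlgebra M 2 (↑S : Set ℕ) →+* K :=
    (s58co_eigenchar hg (↑S : Set ℕ)).codRestrict K hmem
  letI : Algebra (heckeAlgebra M 2 (↑S : Set ℕ)) K := χK.toAlgebra
  let χO : heckeAlgebra M 2 (↑S : Set ℕ) →ₐ[ℤ] 𝓞 K := IsIntegralClosure.lift ℤ (𝓞 K) K
  have hχO : ∀ t, algebraMap K ℂ (algebraMap (𝓞 K) K (χO t)) =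
      s58co_eigenchar hg (↑S : Set ℕ) t := by
    intro t
    have h1 : algebraMap (𝓞 K) K (χO t) = χK t := IsIntegralClosure.algebraMap_lift ℤ (𝓞 K) K _
    rw [h1]
    rfl
  -- the embedding `𝓞 K → ℂ`, with values in `ℤ̄`
  let e' : 𝓞 K →+* ℂ := (algebraMap K ℂ).comp (algebraMap (𝓞 K) K)
  have he' : Function.Injective e' :=
    (algebraMap K ℂ).injective.comp (FaithfulSMul.algebraMap_injective (𝓞 K) K)
  have hint : ∀ x : 𝓞 K, e' x ∈ integralClosure ℤ ℂ := by
    intro x
    have hx : IsIntegral ℤ x := Algebra.IsIntegral.isIntegral x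
    exact map_isIntegral_int e' hx
  let j : 𝓞 K →+* integralClosure ℤ ℂ := e'.codRestrict (integralClosure ℤ ℂ) hint
  have hj : ∀ x : 𝓞 K, ((j x : integralClosure ℤ ℂ) : ℂ) = e' x := fun _ => rfl
  -- the place: the contraction of `𝔪`
  haveI : 𝔪.IsPrime := h𝔪.isPrime
  have hlamv : ((lam : ℕ) : 𝓞 K) ∈ 𝔪.comap j := by
    rw [Ideal.mem_comap, map_natCast]
    exact hlam𝔪
  let v : IsDedekindDomain.HeightOneSpectrum (𝓞 K) := ⟨𝔪.comap j, Ideal.comap_isPrime j 𝔪, by
    intro hbot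
    rw [hbot, Ideal.mem_bot] at hlamv
    exact hlamF.out.ne_zero (by exact_mod_cast hlamv)⟩
  have hv : ((lam : ℕ) : 𝓞 K) ∈ v.asIdeal := hlamv
  haveI : Finite (𝓞 K ⧸ v.asIdeal) := Ideal.finiteQuotientOfFreeOfNeBot v.asIdeal v.ne_bot
  let eqv : 𝓞 K ≃+* e'.range := RingEquiv.ofBijective e'.rangeRestrict
    ⟨fun x y h => he' (by
        have h1 : ((e'.rangeRestrict x : e'.range) : ℂ) = ((e'.rangeRestrict y : e'.range) : ℂ) :=
          congrArg (Subtype.val : e'.range → ℂ) h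
        exact h1), e'.rangeRestrict_surjective⟩
  have hle : (s58co_eigenchar hg (↑S : Set ℕ)).range ≤ e'.range := by
    rintro x ⟨t, rfl⟩
    exact ⟨χO t, hχO t⟩
  let a : 𝓞 K →+* v.adicCompletionIntegers K := algebraMap (𝓞 K) (v.adicCompletionIntegers K)
  have ha : Function.Injective a :=
    FaithfulSMul.algebraMap_injective (𝓞 K) (v.adicCompletionIntegers K)
  refine ⟨v.adicCompletionIntegers K, inferInstance, inferInstance, inferInstance,
    prs_isAdicComplete K v, prs_finite_residueField K v, prs_charZero K v, ?_,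
    s58co_eigenchar hg (↑S : Set ℕ), ?_,
    (a.comp (eqv.symm : e'.range →+* 𝓞 K)).comp (Subring.inclusion hle), ?_, ?_⟩
  · have : algebraMap (𝓞 K) (v.adicCompletionIntegers K) ((lam : ℕ) : 𝓞 K) =
        ((lam : ℕ) : v.adicCompletionIntegers K) :=
      map_natCast (algebraMap (𝓞 K) (v.adicCompletionIntegers K)) lam
    rw [← this]
    exact (prs_algebraMap_mem_maximalIdeal_iff K v _).mpr hv
  · intro ℓ hℓ hℓM hℓS
    exact s58co_eigenchar_T hg (↑S : Set ℕ) hℓ hℓM hℓS
  · intro x y h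
    have h1 := ha h
    have h2 := eqv.symm.injective h1
    exact Subring.inclusion_injective hle h2
  · intro t b n hb hbn
    -- `iota (chig t) = a (χO t)`
    have h1 : (eqv.symm : e'.range →+* 𝓞 K) (Subring.inclusion hle
        ((s58co_eigenchar hg (↑S : Set ℕ)).rangeRestrict t)) = χO t := by
      apply eqv.injective
      rw [RingEquiv.coe_toRingHom, RingEquiv.apply_symm_apply]
      apply Subtype.ext
      show s58co_eigenchar hg (↑S : Set ℕ) t = e' (χO t)
      exact (hχO t).symm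
    have h2 : (((a.comp (eqv.symm : e'.range →+* 𝓞 K)).comp (Subring.inclusion hle)).comp
        (s58co_eigenchar hg (↑S : Set ℕ)).rangeRestrict) t = a (χO t) := by
      rw [RingHom.comp_apply, RingHom.comp_apply, RingHom.comp_apply, h1]
    rw [h2, ← map_intCast a, ← map_sub]
    refine (prs_algebraMap_mem_maximalIdeal_iff K v _).mpr ?_
    show χO t - (n : 𝓞 K) ∈ 𝔪.comap j
    rw [Ideal.mem_comap]
    have h3 : j (χO t - (n : 𝓞 K)) = b - (n : integralClosure ℤ ℂ) := by
      apply Subtype.ext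
      rw [hj, map_sub, map_intCast]
      show e' (χO t) - (n : ℂ) = ((b - (n : integralClosure ℤ ℂ) : integralClosure ℤ ℂ) : ℂ)
      rw [show e' (χO t) = s58co_eigenchar hg (↑S : Set ℕ) t from hχO t, ← hb]
      push_cast
      rfl
    rw [h3]
    exact hbn

end

end Fermat.Agent.M59
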