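import Mathlib
import Fermat.Agent.S56.Cheb.Exists
import Fermat.Prelude.Def_GaloisRep_Residual

/-!
M59 / Sink B, cell [E22-5] (helper23), prefix `m59e5_`.  **Chebotarev comparison of two residual
representations.**

`m59e5_cheb_pair` : two residual representations `ρ₁, ρ₂` over the same field whose Frobenius
elements at the primes outside a finite set `S` have the same characteristic polynomials have the
same characteristic polynomials at EVERY `σ ∈ G_ℚ` (both factor through a finite level; main's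
`s56c_exists`).
-/

set_option autoImplicit false
set_option linter.style.haveILetI false

open Polynomial

namespace Fermat.Agent.M59

/-- a representation factoring through the finite level `L` takes the same value at two elements
agreeing on `L`. -/
theorem m59e5_eq_of_agree {M : Type} [Monoid M]
    (ρ : (AlgebraicClosure ℚ ≃ₐ[ℚ] AlgebraicClosure ℚ) →* M)
    (L : IntermediateField ℚ (AlgebraicClosure ℚ))
    (hker : ∀ σ : AlgebraicClosure ℚ ≃ₐ[ℚ] AlgebraicClosure ℚ, (∀ x ∈ L, σ x = x) → ρ σ = 1)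
    (σ τ : AlgebraicClosure ℚ ≃ₐ[ℚ] AlgebraicClosure ℚ) (h : ∀ x ∈ L, τ x = σ x) :
    ρ τ = ρ σ := by
  have h1 : ρ (σ⁻¹ * τ) = 1 := by
    apply hker
    intro x hx
    rw [AlgEquiv.mul_apply, h x hx]
    exact AlgEquiv.symm_apply_apply σ x
  have h2 : τ = σ * (σ⁻¹ * τ) := by rw [mul_inv_cancel_left]
  rw [h2, map_mul, h1, mul_one]

/-- **Chebotarev comparison.** -/
theorem m59e5_cheb_pair {k : Type} [Field k] (ρ₁ ρ₂ : ResidualGaloisRep k) (S : Finset ℕ)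
    (h : ∀ ℓ : ℕ, ℓ.Prime → ℓ ∉ S → ∀ A : ValuationSubring (AlgebraicClosure ℚ),
      A.LiesOverPrime ℓ → ∀ τ : AlgebraicClosure ℚ ≃ₐ[ℚ] AlgebraicClosure ℚ,
        A.IsFrobeniusAt τ ℓ → LinearMap.charpoly (ρ₁.ρ τ) = LinearMap.charpoly (ρ₂.ρ τ))
    (σ : AlgebraicClosure ℚ ≃ₐ[ℚ] AlgebraicClosure ℚ) :
    LinearMap.charpoly (ρ₁.ρ σ) = LinearMap.charpoly (ρ₂.ρ σ) := by
  classical
  obtain ⟨L₁, hL₁, hker₁⟩ := ρ₁.factorsThroughFiniteLevel
  obtain ⟨L₂, hL₂, hker₂⟩ := ρ₂.factorsThroughFiniteLevel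
  haveI := hL₁
  haveI := hL₂
  have hL : FiniteDimensional ℚ (L₁ ⊔ L₂ : IntermediateField ℚ (AlgebraicClosure ℚ)) :=
    IntermediateField.finiteDimensional_sup L₁ L₂
  obtain ⟨ℓ, A, τ, hℓ, hℓS, hA, hfrob, hτσ⟩ :=
    Fermat.Agent.S56.s56c_exists (L₁ ⊔ L₂) hL S σ
  have e₁ : ρ₁.ρ τ = ρ₁.ρ σ :=
    m59e5_eq_of_agree ρ₁.ρ L₁ hker₁ σ τ fun x hx => hτσ x ((le_sup_left : L₁ ≤ L₁ ⊔ L₂) hx)
  have e₂ : ρ₂.ρ τ = ρ₂.ρ σ :=
    m59e5_eq_of_agree ρ₂.ρ L₂ hker₂ σ τ fun x hx => hτσ x ((le_sup_right : L₂ ≤ L₁ ⊔ L₂) hx)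
  rw [← e₁, ← e₂]
  exact h ℓ hℓ hℓS A hA τ hfrob

end Fermat.Agent.M59
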