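import Mathlib
import Fermat.Agent.M59.SinkB.E225.Cheb
import Fermat.Agent.M59.G5.Away
import Fermat.Agent.S58.CmpDet

/-!
M59 / Sink B, cell [E22-5] (helper23), prefix `m59e5_`.  **A `p`-adic representation congruent to
`T_p W`.**

`ρ : GaloisRepAdic O` whose Frobenius elements at the primes `ℓ ∉ S` have characteristic polynomial
`X² - α_ℓ X + ℓ` with `α_ℓ ≡ a_ℓ(W)` modulo `𝔪_O` (`W` semistable, `W[p]` irreducible, `p` odd):

* `m59e5_res_charpoly` : `ρ̄` and `(T_p W ⊗ O)‾` have the same characteristic polynomials on all of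
  `G_ℚ` (Chebotarev, `m59e5_cheb_pair`);
* `m59e5_hres`         : `ρ̄` is absolutely irreducible and odd (the hypothesis `hres` of S36);
* `m59e5_res_unip`     : `ρ̄(t)` has characteristic polynomial `(X - 1)²` for `t` in the inertia
  groups at every prime `q ≠ p` (the hypothesis of [UNIP-LIFT]).
-/

set_option autoImplicit false
set_option linter.style.haveILetI false
set_option linter.unusedSectionVars false

open Polynomial IsLocalRing WeierstrassCurve Fermat.Agent.S58 Fermat.Agent.JT3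

namespace Fermat.Agent.M59

section

variable {W : WeierstrassCurve ℤ} {p : ℕ} [Fact p.Prime] {ρW : GaloisRepAdic ℤ_[p]}
  {π : ℕ → ρW.V →+ s58_E W}
  {O : Type} [CommRing O] [IsDomain O] [IsDiscreteValuationRing O]
  [IsAdicComplete (maximalIdeal O) O] [Finite (ResidueField O)] [CharZero O]

/-- the residual Frobenius polynomials -/
theorem m59e5_res_frob (ρ : GaloisRepAdic O) (σ : s58_G) (α a : O) (ℓ : ℕ)
    (h : LinearMap.charpoly (ρ.ρ σ) = X ^ 2 - C α * X + C (ℓ : O))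
    (hα : α - a ∈ maximalIdeal O) :
    LinearMap.charpoly (ρ.residual.ρ σ) =
      X ^ 2 - C (residue O a) * X + C (ℓ : ResidueField O) := by
  have h1 : residue O α = residue O a := by
    rw [← sub_eq_zero, ← map_sub]
    exact (residue_eq_zero_iff _).mpr hα
  rw [s58top_residual_charpoly, h, Polynomial.map_add, Polynomial.map_sub, Polynomial.map_mul,
    Polynomial.map_pow, Polynomial.map_X, Polynomial.map_C, Polynomial.map_C, h1, map_natCast]

variable (hss : W.IsSemistableModel) (hΔ : W.Δ ≠ 0) (hp2 : p ≠ 2)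
  (hirr : W.ModRepIsIrreducible p) (hT : s58top_IsTate W p ρW π)
  (hp : (p : O) ∈ maximalIdeal O) (ρ : GaloisRepAdic O) (S : Finset ℕ)
  (hS : ∀ ℓ : ℕ, ℓ.Prime → ℓ ∉ S → ℓ ≠ p ∧ ¬ (ℓ : ℤ) ∣ W.Δ)
  (h₁ : ∀ ℓ : ℕ, ℓ.Prime → ℓ ∉ S → ∀ A : ValuationSubring s58_Qb, A.LiesOverPrime ℓ →
    ∀ σ : s58_G, A.IsFrobeniusAt σ ℓ → ∃ α : O,
      LinearMap.charpoly (ρ.ρ σ) = X ^ 2 - C α * X + C (ℓ : O) ∧
      α - ((W.apOfModel ℓ : ℤ) : O) ∈ maximalIdeal O)

include hss hΔ hp2 hirr hT hp hS h₁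

/-- **`ρ̄` and `(T_p W ⊗ O)‾` have the same characteristic polynomials.** -/
theorem m59e5_res_charpoly (σ : s58_G) :
    LinearMap.charpoly (ρ.residual.ρ σ) =
      LinearMap.charpoly ((m59g_rho p O hp ρW).residual.ρ σ) := by
  have hA := m59ga_away p hp2 W hΔ hss hirr ρW π hT O hp
  refine m59e5_cheb_pair ρ.residual (m59g_rho p O hp ρW).residual S ?_ σ
  intro ℓ hℓ hℓS A hA' τ hτ
  obtain ⟨α, hχ, hα⟩ := h₁ ℓ hℓ hℓS A hA' τ hτ
  rw [m59e5_res_frob ρ τ α _ ℓ hχ hα, map_intCast,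
    hA.frobRes ℓ hℓ (hS ℓ hℓ hℓS).1 (hS ℓ hℓ hℓS).2 A hA' τ hτ]

/-- **the hypothesis `hres` of S36.** -/
theorem m59e5_hres : ρ.residual.IsAbsolutelyIrreducible ∧ ρ.residual.IsOdd := by
  have hA := m59ga_away p hp2 W hΔ hss hirr ρW π hT O hp
  constructor
  · refine s58bn_seam (ResidueField O) (ResidueField O) (RingHom.id _)
      (m59g_rho p O hp ρW).residual ρ.residual (s58top_two_ne_zero p O hp hp2) hA.irr fun σ => ?_
    rw [m59e5_res_charpoly hss hΔ hp2 hirr hT hp ρ S hS h₁ σ, Polynomial.map_id]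
  · have hdet : ∀ σ : s58_G, LinearMap.det (ρ.ρ σ) = cya_eps p O hp σ := by
      refine s58cd_detSeam p O hp ρ S fun ℓ hℓ hℓS A hA' σ hσ => ?_
      obtain ⟨α, hχ, -⟩ := h₁ ℓ hℓ hℓS A hA' σ hσ
      rw [← s58z_charpoly_coeff_zero ρ.finrank_eq, hχ]
      simp
    exact s58od_residual_isOdd ρ ((Fact.out : p.Prime).odd_of_ne_two hp2)
      (cya_detIsCyclotomic p ρ hp hdet)

/-- **`ρ̄` is unipotent on the inertia groups at every prime `q ≠ p`.** -/
theorem m59e5_res_unip {q : ℕ} (hq : q.Prime) (hqp : q ≠ p)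
    (P : ValuationSubring (AlgebraicClosure ℚ)) (hP : P.LiesOverPrime q)
    (σ : s58_G) (hσ : σ ∈ P.inertiaSubgroupIn ℚ) :
    LinearMap.charpoly (ρ.residual.ρ σ) = (X - 1) ^ 2 := by
  have hA := m59ga_away p hp2 W hΔ hss hirr ρW π hT O hp
  rw [m59e5_res_charpoly hss hΔ hp2 hirr hT hp ρ S hS h₁ σ, s58top_residual_charpoly,
    hA.unip q hq hqp P hP σ hσ]
  simp

end

end Fermat.Agent.M59
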