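import Mathlib
import Fermat.Prelude.Def_GaloisRep_LocalConditions

/-!
M59 / Sink B, cell **[E22-5]** = (E-2²) at `p = 5` by Carayol (banked S36) (owner helper23, chief
#5437).  Prefix `m59e5_`.  THE ONE SEAM of the cell:

* `m59e5_UnipLift_stmt` **[UNIP-LIFT]** (owner helper29, file `E225/UnipLift.lean`, tag `m59e5u_`):
  for a prime `p ∉ {2, 3}` and a `p`-adic representation `ρ` over a complete DVR `O` of
  characteristic `0` with finite residue field: if `ρ̄(t)` has characteristic polynomial `(X - 1)²`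
  for every `t` in the inertia groups at `2`, then `ρ` is unipotent on inertia at `2`.
  [`ρ(I)` is then pro-`p`, so `ρ|I` factors through the tame `ℤ_p(1)`-quotient, topologically
  generated by `T` with `Φ T Φ⁻¹ = T ^ 2`; `det T = 1`, `tr T ^ 2 = tr T` gives
  `(t - 2)(t + 1) = 0` with `t + 1 ≡ 3` a unit: `t = 2`.]
-/

set_option autoImplicit false

open Polynomial IsLocalRing

namespace Fermat.Agent.M59

/-- **[UNIP-LIFT]** residually unipotent on inertia at `2` ⟹ unipotent on inertia at `2`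
(`p ≠ 2, 3`). -/
def m59e5_UnipLift_stmt : Prop :=
  ∀ (p : ℕ) [Fact p.Prime], p ≠ 2 → p ≠ 3 →
  ∀ (O : Type) [CommRing O] [IsDomain O] [IsDiscreteValuationRing O]
    [IsAdicComplete (maximalIdeal O) O] [Finite (ResidueField O)] [CharZero O],
    (p : O) ∈ maximalIdeal O → ∀ ρ : GaloisRepAdic O,
    (∀ P : ValuationSubring (AlgebraicClosure ℚ), P.LiesOverPrime 2 →
      ∀ σ ∈ P.inertiaSubgroupIn ℚ, LinearMap.charpoly (ρ.residual.ρ σ) = (X - 1) ^ 2) →
    ρ.IsUnipotentOnInertiaAt 2

end Fermat.Agent.M59
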