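import Mathlib

/-!
M59 / Sink B, cell [E22-5], seam [UNIP-LIFT] (helper29), prefix `m59e5u_`.  THE LINEAR ALGEBRA
(Mathlib only).

* `m59e5u_alg`: `Φ, T ∈ M₂(B)` with invertible determinants, `Φ T = T² Φ` and `tr T + 1` a unit:
  then `det T = 1` and `tr T = 2`.
* `m59e5u_pow`: `det T = 1`, `tr T = 2` ⟹ `det Tᵐ = 1`, `tr Tᵐ = 2` for every `m`.
* `m59e5u_pow_p`: if `(X - 1)²` has entries in an ideal `J ∋ p` then `X ^ p - 1` has entries in `J`.
-/

set_option autoImplicit false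

namespace Fermat.Agent.M59

open Matrix

section alg

variable {B : Type*} [CommRing B]

/-- Cayley–Hamilton for `2 × 2` matrices: `T² = (tr T) T - (det T)`. -/
theorem m59e5u_CH (T : Matrix (Fin 2) (Fin 2) B) :
    T * T = T.trace • T - T.det • (1 : Matrix (Fin 2) (Fin 2) B) := by
  ext i j
  fin_cases i <;> fin_cases j <;>
    simp [Matrix.mul_apply, Fin.sum_univ_two, Matrix.trace_fin_two, Matrix.det_fin_two] <;> ring

/-- `tr T² = (tr T)² - 2 det T`. -/
theorem m59e5u_trace_sq (T : Matrix (Fin 2) (Fin 2) B) :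
    (T * T).trace = T.trace ^ 2 - 2 * T.det := by
  rw [m59e5u_CH T, Matrix.trace_sub, Matrix.trace_smul, Matrix.trace_smul, Matrix.trace_one]
  simp only [Fintype.card_fin, smul_eq_mul]
  push_cast
  ring

/-- **the tame relation `Φ T = T² Φ` forces `det T = 1`, `tr T = 2`** as soon as `tr T + 1` is a
unit. -/
theorem m59e5u_alg (Φ T : Matrix (Fin 2) (Fin 2) B) (hΦ : IsUnit Φ.det) (hT : IsUnit T.det)
    (hrel : Φ * T = T ^ 2 * Φ) (hu : IsUnit (T.trace + 1)) : T.det = 1 ∧ T.trace = 2 := by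
  have hdet : T.det = 1 := by
    have h1 := congrArg Matrix.det hrel
    rw [Matrix.det_mul, Matrix.det_mul, Matrix.det_pow] at h1
    -- `dΦ * d = d² * dΦ`
    have h2 : Φ.det * (T.det * (T.det - 1)) = 0 := by linear_combination -h1
    have h3 : T.det * (T.det - 1) = 0 := hΦ.mul_right_eq_zero.mp h2
    have h4 : T.det - 1 = 0 := hT.mul_right_eq_zero.mp h3
    exact sub_eq_zero.mp h4
  refine ⟨hdet, ?_⟩
  -- `tr T² = tr T`
  have htr : (T * T).trace = T.trace := by
    have hΦu : IsUnit Φ := (Matrix.isUnit_iff_isUnit_det Φ).mpr hΦ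
    have h1 : T * T = Φ * T * Φ⁻¹ := by
      rw [hrel, pow_two, Matrix.mul_assoc, Matrix.mul_nonsing_inv Φ hΦ, Matrix.mul_one]
    rw [h1, Matrix.trace_mul_cycle, Matrix.nonsing_inv_mul Φ hΦ, Matrix.one_mul]
  rw [m59e5u_trace_sq, hdet] at htr
  have h2 : (T.trace + 1) * (T.trace - 2) = 0 := by linear_combination htr
  exact sub_eq_zero.mp (hu.mul_right_eq_zero.mp h2)

/-- powers of a matrix with `det = 1`, `tr = 2`. -/
theorem m59e5u_pow (T : Matrix (Fin 2) (Fin 2) B) (hd : T.det = 1) (ht : T.trace = 2) (m : ℕ) :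
    (T ^ m).det = 1 ∧ (T ^ m).trace = 2 := by
  refine ⟨by rw [Matrix.det_pow, hd, one_pow], ?_⟩
  have hCH := m59e5u_CH T
  rw [hd, ht, one_smul] at hCH
  -- `T ^ m = 1 + m (T - 1)`
  have hpow : ∀ m : ℕ, T ^ m = 1 + (m : B) • (T - 1) := by
    intro m
    induction m with
    | zero => simp
    | succ m ih =>
      rw [pow_succ, ih, Matrix.add_mul, Matrix.one_mul, Matrix.smul_mul, Matrix.sub_mul,
        Matrix.one_mul, hCH]
      push_cast
      rw [add_smul, one_smul, two_smul]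
      abel_nf
  rw [hpow m, Matrix.trace_add, Matrix.trace_smul, Matrix.trace_sub, Matrix.trace_one, ht]
  simp

end alg

section ideal

variable {B : Type*} [CommRing B]

/-- entries in an ideal (local copy of the predicate `twc_lr_In`, to stay Mathlib-only). -/
def m59e5u_In (I : Ideal B) (X : Matrix (Fin 2) (Fin 2) B) : Prop := ∀ i j, X i j ∈ I

theorem m59e5u_In.add {I : Ideal B} {X Y : Matrix (Fin 2) (Fin 2) B} (hX : m59e5u_In I X)
    (hY : m59e5u_In I Y) : m59e5u_In I (X + Y) := fun i j => by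
  rw [Matrix.add_apply]; exact I.add_mem (hX i j) (hY i j)

theorem m59e5u_In.mul_left {I : Ideal B} (Z : Matrix (Fin 2) (Fin 2) B)
    {Y : Matrix (Fin 2) (Fin 2) B} (hY : m59e5u_In I Y) : m59e5u_In I (Z * Y) := fun i j => by
  rw [Matrix.mul_apply]
  exact Ideal.sum_mem _ fun k _ => I.mul_mem_left _ (hY k j)

theorem m59e5u_In.mul_right {I : Ideal B} (Z : Matrix (Fin 2) (Fin 2) B)
    {Y : Matrix (Fin 2) (Fin 2) B} (hY : m59e5u_In I Y) : m59e5u_In I (Y * Z) := fun i j => by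
  rw [Matrix.mul_apply]
  exact Ideal.sum_mem _ fun k _ => I.mul_mem_right _ (hY i k)

theorem m59e5u_In.smul {I : Ideal B} (a : B) {Y : Matrix (Fin 2) (Fin 2) B}
    (hY : m59e5u_In I Y) : m59e5u_In I (a • Y) := fun i j => by
  rw [Matrix.smul_apply, smul_eq_mul]; exact I.mul_mem_left _ (hY i j)

theorem m59e5u_In.smul_mem {I : Ideal B} {a : B} (ha : a ∈ I) (Y : Matrix (Fin 2) (Fin 2) B) :
    m59e5u_In I (a • Y) := fun i j => by
  rw [Matrix.smul_apply, smul_eq_mul]; exact I.mul_mem_right _ ha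

/-- `(X - 1)² ≡ 0` and `p ≡ 0` modulo `J` imply `X ^ p ≡ 1` modulo `J`. -/
theorem m59e5u_pow_p {J : Ideal B} {p : ℕ} (hp : (p : B) ∈ J) {X : Matrix (Fin 2) (Fin 2) B}
    (hX : m59e5u_In J ((X - 1) * (X - 1))) : m59e5u_In J (X ^ p - 1) := by
  -- `X ^ i ≡ 1 + i (X - 1)`
  have key : ∀ i : ℕ, m59e5u_In J (X ^ i - 1 - i • (X - 1)) := by
    intro i
    induction i with
    | zero => intro a b; simp
    | succ i ih =>
      have e : X ^ (i + 1) - 1 - (i + 1) • (X - 1) =
          (X ^ i - 1 - i • (X - 1)) * X + i • ((X - 1) * (X - 1)) := by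
        have h1 : (X - 1) * X = (X - 1) * (X - 1) + (X - 1) := by noncomm_ring
        rw [pow_succ, succ_nsmul, sub_mul, sub_mul, one_mul, smul_mul_assoc, h1, smul_add]
        abel
      rw [e]
      refine (m59e5u_In.mul_right X ih).add ?_
      rw [← Nat.cast_smul_eq_nsmul B]
      exact m59e5u_In.smul _ hX
  have h1 := key p
  have e : X ^ p - 1 = (X ^ p - 1 - p • (X - 1)) + p • (X - 1) := by abel
  rw [e]
  refine h1.add ?_
  rw [← Nat.cast_smul_eq_nsmul B]
  exact m59e5u_In.smul_mem hp _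

end ideal

end Fermat.Agent.M59
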