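import Mathlib
import Fermat.Agent.M59.SinkB.E225.Seams
import Fermat.Agent.M59.SinkB.E225.UnipAlg
import Fermat.Agent.M59.S38g.CTop.Harmless

/-!
M59 / Sink B, cell [E22-5], seam **[UNIP-LIFT]** (helper29), prefix `m59e5u_`.

`m59e5u_main : m59e5_UnipLift_stmt` — `p ∉ {2, 3}`, `ρ` a `p`-adic representation whose residual
representation has characteristic polynomial `(X - 1)²` on the inertia groups at `2`; then `ρ` is
unipotent on inertia at `2`.

Proof.  Frame `ρ` (`exists_framedRep`).  On the inertia group `I` of `primeLocalPlace 2`: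
`(r τ - 1)² ≡ 0 mod 𝔪` (Cayley–Hamilton), so `(r τ) ^ p ≡ 1 mod 𝔪` and the reduction `f_n` of `r`
modulo `𝔪ⁿ` is a `p`-group on `I`.  helper21's tame datum `m59ct_tameGen p {2}` gives
`Φ T = T² Φ` for `T = f_n(σ₂)`, `Φ = f_n(φ₂)` and `f_n(I) ⊆ ⟨T⟩`.  `m59e5u_alg` (`tr T + 1 ≡ 3` is a
unit): `det T = 1`, `tr T = 2`; `m59e5u_pow`: the same for every `f_n(τ)`.  Krull: `tr r(τ) = 2`,
`det r(τ) = 1`.  Every other place above `2` is conjugate.
-/

set_option autoImplicit false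
set_option linter.unusedSectionVars false
set_option linter.style.haveILetI false

open Polynomial IsLocalRing ExtCitation
open Fermat.Agent.S53 Fermat.Agent.S56 Fermat.Agent.TW Fermat.Agent.JT3 Fermat.Agent.S55
open Fermat.Agent.SS Fermat.Agent.DS
open scoped Pointwise

namespace Fermat.Agent.M59

noncomputable section

local notation "GQ" => (AlgebraicClosure ℚ ≃ₐ[ℚ] AlgebraicClosure ℚ)
local notation "Qbar" => AlgebraicClosure ℚ

/-- the prime `2` -/
def m59e5u_two : Nat.Primes := ⟨2, Nat.prime_two⟩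

section framed

variable {A : Type} [CommRing A] [IsLocalRing A] [IsNoetherianRing A]

theorem m59e5u_mk_trace (n : ℕ) (X : Matrix (Fin 2) (Fin 2) A) :
    (twc_lr_mk A n X).trace = Ideal.Quotient.mk (maximalIdeal A ^ n) X.trace := by
  rw [twc_lr_mk, RingHom.mapMatrix_apply, Matrix.trace_fin_two, Matrix.trace_fin_two, map_add]
  rfl

theorem m59e5u_mk_det (n : ℕ) (X : Matrix (Fin 2) (Fin 2) A) :
    (twc_lr_mk A n X).det = Ideal.Quotient.mk (maximalIdeal A ^ n) X.det := by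
  rw [twc_lr_mk, RingHom.map_det]

/-- **[UNIP-LIFT], framed form at the place `primeLocalPlace 2`.** -/
theorem m59e5u_framed {p : ℕ} [Fact p.Prime] (hp2 : p ≠ 2) (hp3 : p ≠ 3)
    (hp : (p : A) ∈ maximalIdeal A) (r : FramedRep A)
    (hres : ∀ τ ∈ (primeLocalPlace m59e5u_two).inertiaSubgroupIn ℚ,
      (r τ).trace - 2 ∈ maximalIdeal A ∧ (r τ).det - 1 ∈ maximalIdeal A) :
    ∀ τ ∈ (primeLocalPlace m59e5u_two).inertiaSubgroupIn ℚ,
      (r τ).trace = 2 ∧ (r τ).det = 1 := by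
  classical
  have hpp : p.Prime := Fact.out
  obtain ⟨td, hgen⟩ := m59ct_tameGen p {m59e5u_two} (fun x hx => by
    rw [Finset.mem_singleton.1 hx]; exact fun h => hp2 h.symm)
  have hmem : m59e5u_two ∈ ({m59e5u_two} : Finset Nat.Primes) := Finset.mem_singleton_self _
  -- `(r τ - 1)² ≡ 0 mod 𝔪`
  have hsq : ∀ τ ∈ (primeLocalPlace m59e5u_two).inertiaSubgroupIn ℚ,
      m59e5u_In (maximalIdeal A) ((r τ - 1) * (r τ - 1)) := by
    intro τ hτ
    obtain ⟨h1, h2⟩ := hres τ hτ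
    have e : (r τ - 1) * (r τ - 1) =
        ((r τ).trace - 2) • r τ + (1 - (r τ).det) • (1 : Matrix (Fin 2) (Fin 2) A) := by
      have hCH := m59e5u_CH (r τ)
      have e1 : (r τ - 1) * (r τ - 1) = r τ * r τ - 2 • r τ + 1 := by noncomm_ring
      rw [e1, hCH, sub_smul, sub_smul, one_smul, ← Nat.cast_smul_eq_nsmul A]
      push_cast
      abel
    rw [e]
    refine m59e5u_In.add (m59e5u_In.smul_mem h1 _) (m59e5u_In.smul_mem ?_ _)
    have : 1 - (r τ).det = -((r τ).det - 1) := by ring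
    rw [this]; exact (Ideal.neg_mem_iff _).mpr h2
  have hpowp : ∀ τ ∈ (primeLocalPlace m59e5u_two).inertiaSubgroupIn ℚ,
      twc_lr_In (maximalIdeal A) ((r τ) ^ p - 1) := fun τ hτ =>
    m59e5u_pow_p hp (hsq τ hτ)
  have h3u : IsUnit ((3 : ℕ) : A) := twlg_as_natCast_isUnit hpp hp 3 (fun h =>
    hp3 ((Nat.prime_dvd_prime_iff_eq hpp Nat.prime_three).1 h))
  intro τ hτ
  have main : ∀ n : ℕ, (r τ).trace - 2 ∈ maximalIdeal A ^ n ∧
      (r τ).det - 1 ∈ maximalIdeal A ^ n := by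
    intro n
    have hfin : ∃ L : IntermediateField ℚ Qbar, FiniteDimensional ℚ L ∧
        ∀ s : GQ, (∀ x ∈ L, s x = x) → twc_lr_red r n s = 1 := by
      obtain ⟨L, hL, h⟩ := r.cont n
      refine ⟨L, hL, fun s hs => ?_⟩
      rw [twc_lr_red_apply, ← sub_eq_zero, ← map_one (twc_lr_mk A n), ← map_sub,
        twc_lr_mk_eq_zero_iff]
      exact h s hs
    have hpg : ∀ τ ∈ (primeLocalPlace m59e5u_two).inertiaSubgroupIn ℚ,
        ∃ m : ℕ, twc_lr_red r n τ ^ p ^ m = 1 := by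
      intro τ hτ
      refine ⟨n + 1, ?_⟩
      rw [twc_lr_red_apply, ← map_pow, ← sub_eq_zero, ← map_one (twc_lr_mk A n), ← map_sub,
        twc_lr_mk_eq_zero_iff, pow_succ', pow_mul]
      exact (twc_lr_pow_p hp (hpowp τ hτ) n).mono (Ideal.pow_le_pow_right (Nat.le_succ n))
    have hrel := td.rel m59e5u_two hmem _ (twc_lr_red r n) hfin hpg
    obtain ⟨m, hm⟩ := hgen m59e5u_two hmem _ (twc_lr_red r n) hfin hpg τ hτ
    have hΦ : IsUnit (twc_lr_red r n (td.gφ m59e5u_two)).det :=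
      (Matrix.isUnit_iff_isUnit_det _).mp ((Group.isUnit _).map (twc_lr_red r n))
    have hT : IsUnit (twc_lr_red r n (td.gσ m59e5u_two)).det :=
      (Matrix.isUnit_iff_isUnit_det _).mp ((Group.isUnit _).map (twc_lr_red r n))
    have hu : IsUnit ((twc_lr_red r n (td.gσ m59e5u_two)).trace + 1) := by
      rw [twc_lr_red_apply, m59e5u_mk_trace, ← map_one (Ideal.Quotient.mk _), ← map_add]
      refine IsUnit.map _ ?_
      obtain ⟨h1, -⟩ := hres _ (td.σ_mem m59e5u_two hmem)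
      have e : (r (td.gσ m59e5u_two)).trace + 1 =
          ((3 : ℕ) : A) - (-((r (td.gσ m59e5u_two)).trace - 2)) := by push_cast; ring
      rw [e]
      exact m59ct_isUnit_sub h3u ((Ideal.neg_mem_iff _).mpr h1)
    have hrel' : twc_lr_red r n (td.gφ m59e5u_two) * twc_lr_red r n (td.gσ m59e5u_two) =
        twc_lr_red r n (td.gσ m59e5u_two) ^ 2 * twc_lr_red r n (td.gφ m59e5u_two) := hrel
    obtain ⟨hd, ht⟩ := m59e5u_alg _ _ hΦ hT hrel' hu
    obtain ⟨hd', ht'⟩ := m59e5u_pow _ hd ht m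
    rw [← hm, twc_lr_red_apply] at hd' ht'
    rw [m59e5u_mk_det] at hd'
    rw [m59e5u_mk_trace] at ht'
    constructor
    · rw [← Ideal.Quotient.eq_zero_iff_mem, map_sub, ht', map_ofNat, sub_self]
    · rw [← Ideal.Quotient.eq_zero_iff_mem, map_sub, hd', map_one, sub_self]
  exact ⟨sub_eq_zero.mp (twc_lr_eq_zero_of_forall_mem fun n => (main n).1),
    sub_eq_zero.mp (twc_lr_eq_zero_of_forall_mem fun n => (main n).2)⟩

end framed

/-- `(X - 1)² = X² - 2X + 1`. -/
theorem m59e5u_sq {R : Type*} [CommRing R] :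
    ((X : R[X]) - 1) ^ 2 = X ^ 2 - C 2 * X + C 1 := by
  rw [map_ofNat, map_one]; ring

/-- **[UNIP-LIFT].** -/
theorem m59e5u_main : m59e5_UnipLift_stmt := by
  classical
  intro p _ hp2 hp3 O _ _ _ _ _ _ hpO ρ h
  obtain ⟨r, ⟨e⟩⟩ := exists_framedRep ρ
  have hres : ∀ τ ∈ (primeLocalPlace m59e5u_two).inertiaSubgroupIn ℚ,
      (r τ).trace - 2 ∈ maximalIdeal O ∧ (r τ).det - 1 ∈ maximalIdeal O := by
    intro τ hτ
    have h1 := h (primeLocalPlace m59e5u_two) (s56ld_liesOver m59e5u_two) τ hτ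
    have h2 : LinearMap.charpoly (ρ.residual.ρ τ) =
        ((r τ).charpoly).map (algebraMap O (ResidueField O)) := by
      have h3 : LinearMap.charpoly (ρ.residual.ρ τ) =
          (LinearMap.charpoly (ρ.ρ τ)).map (algebraMap O (ResidueField O)) :=
        LinearMap.charpoly_baseChange _ _
      rw [h3, ← s56t_tr_charpoly e τ]
      congr 1
      exact Matrix.charpoly_toLin' (r τ)
    rw [h2, Matrix.charpoly_fin_two, m59e5u_sq] at h1
    have c1 := congrArg (fun q : (ResidueField O)[X] => q.coeff 1) h1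
    have c0 := congrArg (fun q : (ResidueField O)[X] => q.coeff 0) h1
    simp only [Polynomial.coeff_map, Polynomial.coeff_add, Polynomial.coeff_sub,
      Polynomial.coeff_X_pow, Polynomial.coeff_C_mul, Polynomial.coeff_X_one,
      Polynomial.coeff_X_zero, Polynomial.coeff_C] at c1 c0
    norm_num at c1 c0
    constructor
    · rw [← residue_eq_zero_iff, map_sub, c1, map_ofNat, sub_self]
    · rw [← residue_eq_zero_iff, map_sub, c0, map_one, sub_self]
  have key := m59e5u_framed hp2 hp3 hpO r hres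
  have hun : r.toGaloisRepAdic.IsUnipotentOnInertiaAt 2 := by
    intro P hP σ hσP
    obtain ⟨τ₀, rfl⟩ := pl_exists_smul_eq Nat.prime_two (s56ld_liesOver m59e5u_two) hP
    have h1 := twib_mem_inertia_smul _ τ₀ σ hσP
    obtain ⟨ht, hd⟩ := key _ h1
    have h3 : r σ = r τ₀ * r (τ₀⁻¹ * σ * τ₀) * r τ₀⁻¹ := by
      rw [← r.map_mul, ← r.map_mul]
      congr 1
      group
    have hinv : r τ₀⁻¹ * r τ₀ = 1 := by rw [← r.map_mul, inv_mul_cancel, r.map_one]
    have hinv' : r τ₀ * r τ₀⁻¹ = 1 := by rw [← r.map_mul, mul_inv_cancel, r.map_one]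
    have htr : (r σ).trace = 2 := by
      rw [h3, Matrix.trace_mul_cycle, hinv, Matrix.one_mul, ht]
    have hdet : (r σ).det = 1 := by
      rw [h3, Matrix.det_mul, Matrix.det_mul, hd, mul_one, ← Matrix.det_mul, hinv',
        Matrix.det_one]
    have h4 : LinearMap.charpoly (r.toGaloisRepAdic.ρ σ) = (r σ).charpoly :=
      Matrix.charpoly_toLin' (r σ)
    rw [h4, Matrix.charpoly_fin_two, htr, hdet, m59e5u_sq]
  exact s56t_tr_isUnipotentOnInertiaAt e.symm hun

end

end Fermat.Agent.M59
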