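import Fermat.Agent.M59.SinkB.E225.Main
import Fermat.Agent.M59.SinkB.E225.UnipLift

/-!
M59 / Sink B, cell [E22-5] (helper23), CLOSED.  Prefix `m59e5_`.

`m59e5_main : m59sb_Eq2TwoAt 5` : (E-2²) at `p = 5`, no `_stmt` hypothesis left
(`m59e5_main_of`, E225/Main.lean, against helper29's `m59e5u_main : m59e5_UnipLift_stmt`,
E225/UnipLift.lean).
-/

set_option autoImplicit false

namespace Fermat.Agent.M59

/-- **[E22-5]**: `R(2M') → R(M')` at `p = 5`, `M'` even squarefree. -/
theorem m59e5_main : m59sb_Eq2TwoAt 5 := m59e5_main_of m59e5u_main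

end Fermat.Agent.M59
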