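import Mathlib
import Fermat.Agent.M59.SinkB.E225.Seams
import Fermat.Agent.M59.SinkB.E225.Coef
import Fermat.Agent.M59.SinkB.E225.Hres
import Fermat.Agent.M59.SinkB.Seams
import Fermat.Agent.S58.Top.Setup
import Fermat.Agent.S58.OldLiftSeam
import Fermat.Agent.S58.Tate
import Fermat.Agent.S36

/-!
M59 / Sink B, cell [E22-5] (helper23), prefix `m59e5_`.  **(E-2²) at `p = 5` by Carayol.**

`m59e5_main_of : m59e5_UnipLift_stmt → m59sb_Eq2TwoAt 5`.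

`(f, 𝔪)` of level `2 M' = 4 N''` (`M'` even squarefree) with `a_ℓ(f) ≡ a_ℓ(W)`.  The newform `g` of `f`
(`s58top_minLevel`) has level `d ∣ 4 N''`.
* If `4 ∤ d` then `d ∣ M'` and `g` is old-lifted to level `M'` (`s58o_oldLiftSeam`): `R(M')` with the
  same `𝔪`.
* If `4 ∣ d` (`d.factorization 2 = 2`): the banked S36 (no hypothesis `q ≠ 2`) gives an attached
  `ρ` that is NOT unipotent on inertia at `2`, as soon as every attached `ρ'` has an absolutely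
  irreducible odd reduction (`m59e5_hres`: Chebotarev against `T_p W`, [COEF-𝔪] `m59e5_coef`);
  but `ρ̄` is unipotent on inertia at `2` (`m59e5_res_unip`: `W` is semistable), hence so is `ρ`
  ([UNIP-LIFT], `p ≠ 2, 3`): contradiction (`m59e5_contra`).
-/

set_option autoImplicit false
set_option linter.style.haveILetI false
set_option linter.unusedSectionVars false

open Polynomial IsLocalRing WeierstrassCurve CuspForm Fermat.Agent.S58 Fermat.Agent.JT3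

namespace Fermat.Agent.M59

/-! ### Arithmetic of the level -/

theorem m59e5_level_cases {d M' : ℕ} (hsq : Squarefree M') (h2 : 2 ∣ M') (hd : d ∣ 2 * M') :
    d.factorization 2 = 2 ∨ d ∣ M' := by
  have hM0 : M' ≠ 0 := hsq.ne_zero
  have h2M0 : 2 * M' ≠ 0 := by omega
  have hd0 : d ≠ 0 := fun h => h2M0 (by rw [h] at hd; exact zero_dvd_iff.mp hd)
  have hle := (Nat.factorization_le_iff_dvd hd0 h2M0).mpr hd
  have hM2 : M'.factorization 2 = 1 := by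
    have h1 : 1 ≤ M'.factorization 2 :=
      (Nat.prime_two.dvd_iff_one_le_factorization hM0).mp h2
    have h3 : M'.factorization 2 ≤ 1 := (Nat.squarefree_iff_factorization_le_one hM0).mp hsq 2
    omega
  have hfac : ∀ q : ℕ, (2 * M').factorization q = (2 : ℕ).factorization q + M'.factorization q := by
    intro q
    rw [Nat.factorization_mul two_ne_zero hM0]
    rfl
  by_cases h : d.factorization 2 = 2
  · exact Or.inl h
  · right
    rw [← Nat.factorization_le_iff_dvd hd0 hM0]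
    intro q
    have hq := hle q
    rw [hfac q] at hq
    by_cases hq2 : q = 2
    · subst hq2
      rw [Nat.prime_two.factorization_self, hM2] at hq
      rw [hM2]
      omega
    · have h0 : (2 : ℕ).factorization q = 0 := by
        rw [Nat.prime_two.factorization]
        simp [Ne.symm hq2]
      rw [h0, zero_add] at hq
      exact hq

/-! ### The contradiction at `4 ∣ d` -/

theorem m59e5_contra (hU : m59e5_UnipLift_stmt) {p : ℕ} [Fact p.Prime] (hp2 : p ≠ 2)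
    (hp3 : p ≠ 3) (W : WeierstrassCurve ℤ) (hΔ : W.Δ ≠ 0) (hss : W.IsSemistableModel)
    (hirr : W.ModRepIsIrreducible p) {N : ℕ} (hN0 : N ≠ 0) {d : ℕ} [NeZero d] (hdN : d ∣ N)
    {g : CuspForm (CongruenceSubgroup.Gamma0 d) 2} (hg : g.IsNewform)
    (𝔪 : Ideal (integralClosure ℤ ℂ)) (h𝔪 : 𝔪.IsMaximal)
    (hp𝔪 : (p : integralClosure ℤ ℂ) ∈ 𝔪)
    (hcong : ∀ ℓ : ℕ, ℓ.Prime → W.IsGoodPrimeFor ℓ → ¬ ℓ ∣ N → ℓ ≠ p →
      ∃ a : integralClosure ℤ ℂ, (a : ℂ) = ModularFormClass.qCoeff g ℓ ∧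
        a - ((W.apOfModel ℓ : ℤ) : integralClosure ℤ ℂ) ∈ 𝔪)
    (hfac : d.factorization 2 = 2) : False := by
  classical
  obtain ⟨ρW, π, hT⟩ := s58top_exists_tate s58t_tateSeam W hΔ p hp2
  set S : Finset ℕ := insert p (N.primeFactors ∪ W.Δ.natAbs.primeFactors) with hSdef
  have hS : ∀ ℓ : ℕ, ℓ.Prime → ℓ ∉ S → ℓ ≠ p ∧ ¬ (ℓ : ℤ) ∣ W.Δ := by
    intro ℓ hℓ hℓS
    rw [hSdef, Finset.mem_insert, Finset.mem_union, not_or, not_or] at hℓS
    refine ⟨hℓS.1, fun h => hℓS.2.2 ?_⟩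
    rw [Nat.mem_primeFactors]
    exact ⟨hℓ, Int.natCast_dvd.mp h, Int.natAbs_ne_zero.mpr hΔ⟩
  have hSN : ∀ ℓ : ℕ, ℓ.Prime → ℓ ∉ S → ¬ ℓ ∣ N := by
    intro ℓ hℓ hℓS h
    rw [hSdef, Finset.mem_insert, Finset.mem_union, not_or, not_or] at hℓS
    exact hℓS.2.1 (Nat.mem_primeFactors.mpr ⟨hℓ, h, hN0⟩)
  obtain ⟨O', i1, i2, i3, i4, i5, i6, hpO', chig, hchig, iota, -, hcongO⟩ :=
    m59e5_coef hg.1 p S 𝔪 h𝔪 hp𝔪
  -- the translation of the Frobenius clause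
  have htrans : ∀ (O : Type) [CommRing O] [IsLocalRing O] [Algebra O' O]
      [IsLocalHom (algebraMap O' O)] (ρ : GaloisRepAdic O),
      (∀ (ℓ : ℕ) (hℓ : ℓ.Prime) (_ : ℓ ≠ p) (hℓM : ¬ ℓ ∣ d) (hℓS : ℓ ∉ (↑S : Set ℕ)),
        ∀ A : ValuationSubring s58_Qb, A.LiesOverPrime ℓ → ∀ σ : s58_G, A.IsFrobeniusAt σ ℓ →
          LinearMap.charpoly (ρ.ρ σ) =
            X ^ 2 - C (algebraMap O' O ((iota.comp chig.rangeRestrict)
              (heckeAlgebra.T hℓ hℓM hℓS))) * X + C ((ℓ : O))) →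
      ∀ ℓ : ℕ, ℓ.Prime → ℓ ∉ S → ∀ A : ValuationSubring s58_Qb, A.LiesOverPrime ℓ →
        ∀ σ : s58_G, A.IsFrobeniusAt σ ℓ → ∃ α : O,
          LinearMap.charpoly (ρ.ρ σ) = X ^ 2 - C α * X + C (ℓ : O) ∧
          α - ((W.apOfModel ℓ : ℤ) : O) ∈ maximalIdeal O := by
    intro O _ _ _ _ ρ hρ ℓ hℓ hℓS A hA σ hσ
    have hℓN := hSN ℓ hℓ hℓS
    have hℓM : ¬ ℓ ∣ d := fun h => hℓN (h.trans hdN)
    have hℓS' : ℓ ∉ (↑S : Set ℕ) := fun h => hℓS (Finset.mem_coe.mp h)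
    refine ⟨_, hρ ℓ hℓ (hS ℓ hℓ hℓS).1 hℓM hℓS' A hA σ hσ, ?_⟩
    obtain ⟨a, ha, ha𝔪⟩ := hcong ℓ hℓ (hS ℓ hℓ hℓS).2 hℓN (hS ℓ hℓ hℓS).1
    have h1 := hcongO (heckeAlgebra.T hℓ hℓM hℓS') a (W.apOfModel ℓ)
      (by rw [ha, hchig]) ha𝔪
    have h2 : algebraMap O' O ((iota.comp chig.rangeRestrict) (heckeAlgebra.T hℓ hℓM hℓS')) -
        ((W.apOfModel ℓ : ℤ) : O) = algebraMap O' O ((iota.comp chig.rangeRestrict)
          (heckeAlgebra.T hℓ hℓM hℓS') - ((W.apOfModel ℓ : ℤ) : O')) := by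
      rw [map_sub, map_intCast]
    rw [h2]
    exact (mem_maximalIdeal _).mpr
      (map_nonunit (algebraMap O' O) _ ((mem_maximalIdeal _).mp h1))
  have key := @Fermat.Agent.S36.result d _ g hg p _ S O' i1 i2 i3 i4 i5 i6 hpO' hp2 chig hchig iota
    (Finset.mem_insert_self _ _)
    (fun q' hq' hq'M => Finset.mem_insert_of_mem (Finset.mem_union_left _
      (Nat.mem_primeFactors.mpr ⟨hq', hq'M.trans hdN, hN0⟩)))
    (by
      intro O _ _ _ _ _ _ _ _ _ _ ρ hρ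
      exact m59e5_hres hss hΔ hp2 hirr hT (s58top_natCast_mem_of_isLocalHom hpO') ρ S hS
        (htrans O ρ hρ))
  obtain ⟨O, j1, j2, j3, j4, j5, j6, j7, j8, j9, -, ρ, hρ1, hρ2⟩ := key
  have hpO : (p : O) ∈ maximalIdeal O := s58top_natCast_mem_of_isLocalHom hpO'
  refine hρ2 2 Nat.prime_two (Ne.symm hp2) hfac ?_
  refine hU p hp2 hp3 O hpO ρ fun P hP σ hσ => ?_
  exact m59e5_res_unip hss hΔ hp2 hirr hT hpO ρ S hS
    (htrans O ρ (fun ℓ hℓ _ hℓM hℓS => hρ1 ℓ hℓ hℓM hℓS)) Nat.prime_two (Ne.symm hp2) P hP σ hσ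

/-! ### The cell -/

/-- **[E22-5] from [UNIP-LIFT].** -/
theorem m59e5_main_of (hU : m59e5_UnipLift_stmt) : m59sb_Eq2TwoAt 5 := by
  intro W hΔ hW hirr M' r hsq h2 _ _ _ _ _ hR
  haveI : Fact (Nat.Prime 5) := ⟨by norm_num⟩
  obtain ⟨f, 𝔪, hf, h𝔪, h5𝔪, hcong⟩ := hR
  have hM0 : M' ≠ 0 := hsq.ne_zero
  have hN0 : 2 * M' ≠ 0 := by omega
  obtain ⟨d, hdN, g, hg, hgf⟩ := s58top_minLevel hN0 f hf
  have hd0 : d ≠ 0 := fun h => hN0 (by rw [h] at hdN; exact zero_dvd_iff.mp hdN)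
  haveI : NeZero d := ⟨hd0⟩
  rcases m59e5_level_cases hsq h2 hdN with hfac | hdM'
  · exfalso
    refine m59e5_contra hU (p := 5) (by norm_num) (by norm_num) W hΔ hW hirr hN0 hdN hg 𝔪 h𝔪
      h5𝔪 (fun ℓ hℓ hgood hℓN hℓp => ?_) hfac
    obtain ⟨a, ha, ha𝔪⟩ := hcong ℓ hℓ hgood hℓN hℓp
    exact ⟨a, by rw [ha, hgf ℓ hℓ hℓN], ha𝔪⟩
  · obtain ⟨R, rfl⟩ := hdM'
    obtain ⟨hcop, -, hRsq⟩ := Nat.squarefree_mul_iff.mp hsq
    obtain ⟨g', hg', hg'g⟩ := s58o_oldLiftSeam d R hRsq hcop g hg.1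
    refine ⟨g', 𝔪, hg', h𝔪, h5𝔪, fun ℓ hℓ hgood hℓM hℓp => ?_⟩
    have hℓ2M : ¬ ℓ ∣ 2 * (d * R) := by
      intro h
      rcases (Nat.Prime.dvd_mul hℓ).mp h with h' | h'
      · have : ℓ = 2 := (Nat.prime_dvd_prime_iff_eq hℓ Nat.prime_two).mp h'
        exact hℓM (this ▸ h2)
      · exact hℓM h'
    have hℓR : ℓ.Coprime R :=
      (Nat.Prime.coprime_iff_not_dvd hℓ).mpr fun h => hℓM (h.mul_left d)
    obtain ⟨a, ha, ha𝔪⟩ := hcong ℓ hℓ hgood hℓ2M hℓp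
    exact ⟨a, by rw [ha, hg'g ℓ hℓR, hgf ℓ hℓ hℓ2M], ha𝔪⟩

end Fermat.Agent.M59
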